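import Mathlib

/-!
# Project K (S26), block (P2): the two cover inequalities

`E ⊂ F` a finite separable field extension (`E` = the downstairs copy of the function field,
`algebraMap E F` = pull-back along the isogeny), `K` the ground field.
For `K`-subspaces `L ⊂ E`, `L' ⊂ F`:

* `card_mul_finrank_le` : an `E`-independent family `θ` with `θ i * φ(L) ⊂ L'` gives
  `#ι * dim L ≤ dim L'`;
* `finrank_le_card_mul` : an `E`-basis `θ` of `F` with `Tr (L' * θ i) ⊂ L` gives
  `dim L' ≤ #ι * dim L` (non-degeneracy of the trace form).
-/

namespace Fermat.Agent.S26lib.Squeeze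

open Module

variable {K E F : Type*} [Field K] [Field E] [Field F] [Algebra K E] [Algebra K F] [Algebra E F]
  [IsScalarTower K E F]

/-- The `K`-linear map `(y_i) ↦ ∑ θ_i * φ(y_i)`. -/
noncomputable def sumMap {ι : Type*} [Fintype ι] (L : Submodule K E) (θ : ι → F) :
    (ι → L) →ₗ[K] F where
  toFun y := ∑ i, θ i * algebraMap E F (y i : E)
  map_add' y z := by
    simp only [Pi.add_apply, Submodule.coe_add, map_add, mul_add, Finset.sum_add_distrib]
  map_smul' r y := by
    simp only [Pi.smul_apply, Submodule.coe_smul, RingHom.id_apply, Finset.smul_sum]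
    refine Finset.sum_congr rfl fun i _ => ?_
    rw [Algebra.smul_def, Algebra.smul_def, map_mul, ← IsScalarTower.algebraMap_apply]
    ring

theorem sumMap_apply {ι : Type*} [Fintype ι] (L : Submodule K E) (θ : ι → F) (y : ι → L) :
    sumMap L θ y = ∑ i, θ i * algebraMap E F (y i : E) := rfl

theorem sumMap_injective {ι : Type*} [Fintype ι] (L : Submodule K E) (θ : ι → F)
    (hθ : LinearIndependent E θ) : Function.Injective (sumMap L θ) := by
  rw [← LinearMap.ker_eq_bot, LinearMap.ker_eq_bot']
  intro y hy
  rw [sumMap_apply] at hy
  have h0 : ∀ i, (y i : E) = 0 := by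
    have := Fintype.linearIndependent_iff.mp hθ (fun i => (y i : E)) (by
      rw [← hy]
      refine Finset.sum_congr rfl fun i _ => ?_
      rw [Algebra.smul_def, mul_comm])
    exact this
  funext i
  exact Subtype.ext (h0 i)

/-- **Lower cover inequality.** -/
theorem card_mul_finrank_le {ι : Type*} [Fintype ι] (L : Submodule K E) (L' : Submodule K F)
    [Module.Finite K L] [Module.Finite K L'] (θ : ι → F) (hθ : LinearIndependent E θ)
    (hL : ∀ i y, y ∈ L → θ i * algebraMap E F y ∈ L') :
    Fintype.card ι * finrank K L ≤ finrank K L' := by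
  have hmem : ∀ y : ι → L, sumMap L θ y ∈ L' := by
    intro y
    rw [sumMap_apply]
    exact Submodule.sum_mem _ fun i _ => hL i _ (y i).2
  let Φ : (ι → L) →ₗ[K] L' := LinearMap.codRestrict L' (sumMap L θ) hmem
  have hΦ : Function.Injective Φ := by
    intro y z hyz
    apply sumMap_injective L θ hθ
    have := congrArg Subtype.val hyz
    simpa [Φ] using this
  have h1 := LinearMap.finrank_le_finrank_of_injective hΦ
  rw [Module.finrank_pi_fintype, Finset.sum_const, Finset.card_univ, smul_eq_mul] at h1
  exact h1

/-- The `K`-linear map `z ↦ (Tr (z * θ_i))_i`. -/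
noncomputable def traceMap {ι : Type*} (θ : ι → F) : F →ₗ[K] (ι → E) where
  toFun z i := Algebra.trace E F (z * θ i)
  map_add' y z := by
    funext i
    simp only [Pi.add_apply, add_mul, map_add]
  map_smul' r y := by
    funext i
    simp only [Pi.smul_apply, RingHom.id_apply]
    rw [Algebra.smul_def, Algebra.smul_def, IsScalarTower.algebraMap_apply K E F, mul_assoc,
      ← Algebra.smul_def, LinearMap.map_smul, smul_eq_mul]

theorem traceMap_apply {ι : Type*} (θ : ι → F) (z : F) (i : ι) :
    traceMap (K := K) (E := E) θ z i = Algebra.trace E F (z * θ i) := rfl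

theorem traceMap_injective [FiniteDimensional E F] [Algebra.IsSeparable E F] {ι : Type*}
    (θ : Basis ι E F) : Function.Injective (traceMap (K := K) (E := E) θ) := by
  rw [← LinearMap.ker_eq_bot, LinearMap.ker_eq_bot']
  intro z hz
  have hnd := (traceForm_nondegenerate E F).1
  apply hnd z
  intro y
  have h0 : Algebra.traceForm E F z = 0 := by
    apply θ.ext
    intro i
    rw [Algebra.traceForm_apply, LinearMap.zero_apply]
    have := congrFun hz i
    rw [traceMap_apply] at this
    exact this
  rw [h0, LinearMap.zero_apply]

/-- **Upper cover inequality.** -/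
theorem finrank_le_card_mul [FiniteDimensional E F] [Algebra.IsSeparable E F] {ι : Type*}
    [Fintype ι] (L : Submodule K E) (L' : Submodule K F) [Module.Finite K L] (θ : Basis ι E F)
    (hL : ∀ i z, z ∈ L' → Algebra.trace E F (z * θ i) ∈ L) :
    Module.Finite K L' ∧ finrank K L' ≤ Fintype.card ι * finrank K L := by
  let Ψ : L' →ₗ[K] (ι → L) :=
    { toFun := fun z i => ⟨traceMap (K := K) (E := E) θ z i, hL i z z.2⟩
      map_add' := by
        intro y z
        funext i
        apply Subtype.ext
        simp only [Submodule.coe_add, map_add, Pi.add_apply]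
      map_smul' := by
        intro r y
        funext i
        apply Subtype.ext
        simp only [Submodule.coe_smul, map_smul, Pi.smul_apply, RingHom.id_apply] }
  have hΨ : Function.Injective Ψ := by
    intro y z hyz
    apply Subtype.ext
    apply traceMap_injective (K := K) θ
    funext i
    have := congrArg (fun w : ι → L => ((w i : L) : E)) hyz
    exact this
  have hfin : Module.Finite K L' := Module.Finite.of_injective Ψ hΨ
  refine ⟨hfin, ?_⟩
  have h1 := LinearMap.finrank_le_finrank_of_injective hΨ
  rw [Module.finrank_pi_fintype, Finset.sum_const, Finset.card_univ, smul_eq_mul] at h1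
  exact h1

end Fermat.Agent.S26lib.Squeeze
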