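import Fermat.Agent.S26lib.Squeeze.Arith
import Fermat.Agent.S26lib.Squeeze.Cover

/-!
# Project K (S26), block (P2): the abstract squeeze theorem

`finrank_eq_pow` : for a finite separable extension `F/E` of fields over `K` with filtrations
`L k ⊂ E`, `L' k ⊂ F` (think `L(kD)` and `L(k φ^*D)`), the trace and basis hypotheses, the
linear equivalence `φ^*D ~ n²D` in the numerical form `dim L' k = dim L (n² k)`, and growth of
`dim L k` of exact order `k^g`, one has `[F : E] = n^(2g)`.
-/

namespace Fermat.Agent.S26lib.Squeeze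

open Module

/-- **The abstract squeeze theorem.** -/
theorem finrank_eq_pow {K E F : Type*} [Field K] [Field E] [Field F] [Algebra K E] [Algebra K F]
    [Algebra E F] [IsScalarTower K E F] [FiniteDimensional E F] [Algebra.IsSeparable E F]
    (g n : ℕ) (hn : 2 ≤ n)
    (L : ℕ → Submodule K E) (L' : ℕ → Submodule K F)
    (hfin : ∀ k, Module.Finite K (L k)) (hmono : Monotone L)
    (hmul' : ∀ j k y z, y ∈ L' j → z ∈ L' k → y * z ∈ L' (j + k))
    (hmap : ∀ k y, y ∈ L k → algebraMap E F y ∈ L' k)
    (htr : ∀ k z, z ∈ L' k → Algebra.trace E F z ∈ L k)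
    (hθ : ∃ c, ∃ θ : Basis (Fin (finrank E F)) E F, ∀ i, θ i ∈ L' c)
    (hlin : ∀ k, finrank K (L' k) = finrank K (L (n ^ 2 * k)))
    (hlow : ∃ M, ∀ k, k ^ g ≤ M * finrank K (L k))
    (hup : ∃ C, ∀ k, finrank K (L k) ≤ C * (k + 1) ^ g) :
    finrank E F = n ^ (2 * g) := by
  obtain ⟨c, θ, hθc⟩ := hθ
  obtain ⟨M, hM⟩ := hlow
  obtain ⟨C, hC⟩ := hup
  have := hfin
  -- upper cover: `L' k` is finite-dimensional and `a' k ≤ d * a (k + c)`
  have hupc : ∀ k, Module.Finite K (L' k) ∧
      finrank K (L' k) ≤ Fintype.card (Fin (finrank E F)) * finrank K (L (k + c)) := by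
    intro k
    exact finrank_le_card_mul (L (k + c)) (L' k) θ
      (fun i z hz => htr _ _ (hmul' k c z (θ i) hz (hθc i)))
  have : ∀ k, Module.Finite K (L' k) := fun k => (hupc k).1
  -- lower cover: `d * a k ≤ a' (k + c)`
  have hlowc : ∀ k, Fintype.card (Fin (finrank E F)) * finrank K (L k) ≤
      finrank K (L' (k + c)) := by
    intro k
    refine card_mul_finrank_le (L k) (L' (k + c)) θ θ.linearIndependent ?_
    intro i y hy
    rw [add_comm k c]
    exact hmul' c k _ _ (hθc i) (hmap k y hy)
  simp only [Fintype.card_fin] at hupc hlowc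
  refine eq_pow_of_squeeze (fun k => finrank K (L k)) g n (finrank E F) c M C hn ?_ hM hC ?_ ?_
  · intro j k hjk
    exact Submodule.finrank_mono (hmono hjk)
  · intro k
    have := hlowc k
    rw [hlin] at this
    exact this
  · intro k
    have := (hupc k).2
    rw [hlin] at this
    exact this

end Fermat.Agent.S26lib.Squeeze
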