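import Fermat.Agent.S26lib.Squeeze.ModelGrowth
import Fermat.Agent.S26lib.Squeeze.Main

/-!
# Project K (S26), block (P2): the growth theorem in a thin Weil model

`finrank_fieldRange_eq_pow` : helper7's `GrowthStatement` (`Iface.lean`) for `2 ≤ n`, with the
upper growth bound `dim L(kD) ≤ C (k+1)^g` (and finite-dimensionality of `L(kD)`) as the single
remaining hypothesis.

`growthStatement_of_upper` : the same, packaged as an implication between closed statements.
-/

namespace Fermat.Agent.S26lib.Squeeze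

open Fermat.Agent.S26lib Module

universe u

/-- **(P2), assembled**: in a thin Weil model, `ν^*D = n² D + div h₀` forces
`[F : ν F] = n ^ (2 g)` (`n ≥ 2`), given the upper growth bound for `dim L(kD)`. -/
theorem finrank_fieldRange_eq_pow {K F : Type u} [Field K] [Field F] [Algebra K F]
    {M : DivModel K F} {D : M.ι → ℕ} {g : ℕ} (hG : M.GrowthHyp D g)
    (hU : ∃ C : ℕ, ∀ k, Module.Finite K (M.L (M.nsmulDiv k D)) ∧ M.dimL D k ≤ C * (k + 1) ^ g)
    {ν : F →ₐ[K] F} {img : M.ι → M.ι} {e : M.ι → ℕ} (hν : M.FinMapHyp ν img e)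
    {n : ℕ} (hn : 2 ≤ n)
    (hquad : ∃ h₀ : F, h₀ ≠ 0 ∧ ∀ P' : M.ι,
      (M.pullDiv img e D P' : ℤ) = (n : ℤ) ^ 2 * (D P' : ℤ) + M.ord P' h₀) :
    Module.finrank ν.fieldRange F = n ^ (2 * g) := by
  obtain ⟨C, hC⟩ := hU
  obtain ⟨h₀, hh₀, hq⟩ := hquad
  have := hν.finite
  have := hν.separable
  have hfin : ∀ k, Module.Finite K (Lk M D k) := fun k => (hC k).1
  have hLfin : ∀ k, finrank K ((Lk M D k).map (rangeEquiv ν : F →ₗ[K] ν.fieldRange)) =
      finrank K (Lk M D k) := fun k => LinearEquiv.finrank_map_eq (rangeEquiv ν) _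
  refine finrank_eq_pow g n hn
    (fun k => (Lk M D k).map (rangeEquiv ν : F →ₗ[K] ν.fieldRange))
    (fun k => Lk M (M.pullDiv img e D) k) ?_ ?_ ?_ ?_ ?_ ?_ ?_ ?_ ?_
  · intro k
    have := hfin k
    exact Module.Finite.map _ _
  · intro j k hjk
    exact Submodule.map_mono (Lk_mono M D hjk)
  · intro j k y z hy hz
    exact mul_mem_Lk M _ hy hz
  · rintro k _ ⟨x, hx, rfl⟩
    exact map_mem_Lk_pullDiv hν D k hx
  · intro k z hz
    exact trace_mem_map_Lk hν D k hz
  · exact exists_basis_mem _ (Lk_mono M _) (exists_denominator hν hG)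
  · intro k
    rw [hLfin]
    exact finrank_Lk_pullDiv D n hh₀ hq k
  · obtain ⟨M₀, hM₀⟩ := exists_lower_growth_model hG hfin
    exact ⟨M₀, fun k => by rw [hLfin]; exact hM₀ k⟩
  · exact ⟨C, fun k => by rw [hLfin]; exact (hC k).2⟩

/-- The upper growth statement still to be supplied (helper5's block). -/
def UpperStatement : Prop :=
  ∀ (K F : Type u) [Field K] [Field F] [Algebra K F] [IsAlgClosed K] (M : DivModel K F)
    (D : M.ι → ℕ) (g : ℕ), M.GrowthHyp D g →
    ∃ C : ℕ, ∀ k, Module.Finite K (M.L (M.nsmulDiv k D)) ∧ M.dimL D k ≤ C * (k + 1) ^ g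

/-- `GrowthStatement` for `n ≥ 2`. -/
def GrowthStatementTwo : Prop :=
  ∀ (K F : Type u) [Field K] [Field F] [Algebra K F] [IsAlgClosed K] (M : DivModel K F)
    (D : M.ι → ℕ) (g : ℕ), M.GrowthHyp D g →
    ∀ (ν : F →ₐ[K] F) (img : M.ι → M.ι) (e : M.ι → ℕ), M.FinMapHyp ν img e →
    ∀ (n : ℕ), 2 ≤ n → (∃ h₀ : F, h₀ ≠ 0 ∧
        ∀ P' : M.ι, (M.pullDiv img e D P' : ℤ) = (n : ℤ) ^ 2 * (D P' : ℤ) + M.ord P' h₀) →
      Module.finrank ν.fieldRange F = n ^ (2 * g)

theorem growthStatementTwo_of_upper (hU : UpperStatement.{u}) : GrowthStatementTwo.{u} := by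
  intro K F _ _ _ _ M D g hG ν img e hν n hn hquad
  exact finrank_fieldRange_eq_pow hG (hU K F M D g hG) hν hn hquad

end Fermat.Agent.S26lib.Squeeze
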