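import Mathlib

/-!
# Project K (S26), block (P2): the numeric end of the squeeze

Pure arithmetic in `ℕ`: a monotone function `a : ℕ → ℕ` squeezed between `k^g / M` and
`C (k+1)^g`, together with the two cover inequalities
`d * a k ≤ a (n^2 (k + c))` and `a (n^2 k) ≤ d * a (k + c)`, forces `d = n^(2g)`.
No limits and no multiplicativity of the degree are used.
-/

namespace Fermat.Agent.S26lib.Squeeze

/-- If `x ^ j ≤ C * y ^ j` for every `j`, then `x ≤ y`. -/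
theorem le_of_forall_pow_le_mul_pow {x y C : ℕ} (h : ∀ j : ℕ, x ^ j ≤ C * y ^ j) : x ≤ y := by
  by_contra hlt
  rw [not_le] at hlt
  rcases Nat.eq_zero_or_pos y with hy | hy
  · subst hy
    have h1 := h 1
    simp at h1
    omega
  · have hy' : (0 : ℝ) < (y : ℝ) := by exact_mod_cast hy
    have hxy : (1 : ℝ) < (x : ℝ) / (y : ℝ) := by
      rw [one_lt_div hy']
      exact_mod_cast hlt
    obtain ⟨j, hj⟩ := pow_unbounded_of_one_lt (C : ℝ) hxy
    have h2 : ((x : ℝ) ^ j) ≤ (C : ℝ) * (y : ℝ) ^ j := by exact_mod_cast h j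
    rw [div_pow, lt_div_iff₀ (pow_pos hy' j)] at hj
    linarith

/-- The increasing sequence `u 0 = 1`, `u (j+1) = n^2 (u j + c)`. -/
def upSeq (n c : ℕ) : ℕ → ℕ
  | 0 => 1
  | (j + 1) => n ^ 2 * (upSeq n c j + c)

theorem upSeq_zero (n c : ℕ) : upSeq n c 0 = 1 := rfl

theorem upSeq_succ (n c j : ℕ) : upSeq n c (j + 1) = n ^ 2 * (upSeq n c j + c) := rfl

theorem upSeq_add_le (n c : ℕ) (hn : 2 ≤ n) (j : ℕ) :
    upSeq n c j + 2 * c ≤ n ^ (2 * j) * (1 + 2 * c) := by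
  induction j with
  | zero => simp [upSeq_zero]
  | succ j ih =>
    rw [upSeq_succ]
    have hn2 : 2 ≤ n ^ 2 := by nlinarith
    have h1 : n ^ 2 * (upSeq n c j + c) + 2 * c ≤ n ^ 2 * (upSeq n c j + 2 * c) := by
      nlinarith
    calc n ^ 2 * (upSeq n c j + c) + 2 * c ≤ n ^ 2 * (upSeq n c j + 2 * c) := h1
      _ ≤ n ^ 2 * (n ^ (2 * j) * (1 + 2 * c)) := Nat.mul_le_mul_left _ ih
      _ = n ^ (2 * (j + 1)) * (1 + 2 * c) := by ring

theorem pow_mul_le_upSeq (a : ℕ → ℕ) (n d c : ℕ)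
    (h1 : ∀ k, d * a k ≤ a (n ^ 2 * (k + c))) (j : ℕ) :
    d ^ j * a 1 ≤ a (upSeq n c j) := by
  induction j with
  | zero => simp [upSeq_zero]
  | succ j ih =>
    rw [upSeq_succ]
    calc d ^ (j + 1) * a 1 = d * (d ^ j * a 1) := by ring
      _ ≤ d * a (upSeq n c j) := Nat.mul_le_mul_left _ ih
      _ ≤ a (n ^ 2 * (upSeq n c j + c)) := h1 _

/-- Upper bound `d ≤ n^(2g)`. -/
theorem le_pow_of_squeeze (a : ℕ → ℕ) (g n d c C : ℕ) (hn : 2 ≤ n)
    (ha1 : 1 ≤ a 1)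
    (hup : ∀ k, a k ≤ C * (k + 1) ^ g)
    (h1 : ∀ k, d * a k ≤ a (n ^ 2 * (k + c))) :
    d ≤ n ^ (2 * g) := by
  apply le_of_forall_pow_le_mul_pow (C := C * (2 + 2 * c) ^ g)
  intro j
  have hA := pow_mul_le_upSeq a n d c h1 j
  have hB := hup (upSeq n c j)
  have hC := upSeq_add_le n c hn j
  have hpos : 1 ≤ n ^ (2 * j) := Nat.one_le_pow _ _ (by omega)
  have hD : upSeq n c j + 1 ≤ n ^ (2 * j) * (2 + 2 * c) := by nlinarith
  calc d ^ j ≤ d ^ j * a 1 := Nat.le_mul_of_pos_right _ ha1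
    _ ≤ a (upSeq n c j) := hA
    _ ≤ C * (upSeq n c j + 1) ^ g := hB
    _ ≤ C * (n ^ (2 * j) * (2 + 2 * c)) ^ g :=
        Nat.mul_le_mul_left _ (Nat.pow_le_pow_left hD g)
    _ = C * (2 + 2 * c) ^ g * (n ^ (2 * g)) ^ j := by
        rw [mul_pow, ← pow_mul, ← pow_mul]
        ring_nf

theorem downSeq_le (a : ℕ → ℕ) (n d c : ℕ) (hn : 2 ≤ n) (hmono : Monotone a)
    (h2 : ∀ k, a (n ^ 2 * k) ≤ d * a (k + c)) (j : ℕ) :
    a (n ^ (2 * j) + 2 * c) ≤ d ^ j * a (1 + 2 * c) := by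
  induction j with
  | zero => simp
  | succ j ih =>
    have hn2 : 2 ≤ n ^ 2 := by nlinarith
    have hle : n ^ (2 * (j + 1)) + 2 * c ≤ n ^ 2 * (n ^ (2 * j) + c) := by
      have : n ^ (2 * (j + 1)) = n ^ 2 * n ^ (2 * j) := by ring
      rw [this]
      nlinarith
    calc a (n ^ (2 * (j + 1)) + 2 * c) ≤ a (n ^ 2 * (n ^ (2 * j) + c)) := hmono hle
      _ ≤ d * a (n ^ (2 * j) + c + c) := h2 _
      _ = d * a (n ^ (2 * j) + 2 * c) := by rw [add_assoc, ← two_mul]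
      _ ≤ d * (d ^ j * a (1 + 2 * c)) := Nat.mul_le_mul_left _ ih
      _ = d ^ (j + 1) * a (1 + 2 * c) := by ring

/-- Lower bound `n^(2g) ≤ d`. -/
theorem pow_le_of_squeeze (a : ℕ → ℕ) (g n d c M : ℕ) (hn : 2 ≤ n) (hmono : Monotone a)
    (hlow : ∀ k, k ^ g ≤ M * a k)
    (h2 : ∀ k, a (n ^ 2 * k) ≤ d * a (k + c)) :
    n ^ (2 * g) ≤ d := by
  apply le_of_forall_pow_le_mul_pow (C := M * a (1 + 2 * c))
  intro j
  have hA := downSeq_le a n d c hn hmono h2 j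
  have hB := hlow (n ^ (2 * j) + 2 * c)
  calc (n ^ (2 * g)) ^ j = (n ^ (2 * j)) ^ g := by rw [← pow_mul, ← pow_mul]; ring_nf
    _ ≤ (n ^ (2 * j) + 2 * c) ^ g := Nat.pow_le_pow_left (Nat.le_add_right _ _) g
    _ ≤ M * a (n ^ (2 * j) + 2 * c) := hB
    _ ≤ M * (d ^ j * a (1 + 2 * c)) := Nat.mul_le_mul_left _ hA
    _ = M * a (1 + 2 * c) * d ^ j := by ring

/-- **Numeric end of the squeeze.** -/
theorem eq_pow_of_squeeze (a : ℕ → ℕ) (g n d c M C : ℕ) (hn : 2 ≤ n) (hmono : Monotone a)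
    (hlow : ∀ k, k ^ g ≤ M * a k)
    (hup : ∀ k, a k ≤ C * (k + 1) ^ g)
    (h1 : ∀ k, d * a k ≤ a (n ^ 2 * (k + c)))
    (h2 : ∀ k, a (n ^ 2 * k) ≤ d * a (k + c)) :
    d = n ^ (2 * g) := by
  have ha1 : 1 ≤ a 1 := by
    have h := hlow 1
    rw [one_pow] at h
    by_contra h0
    have : a 1 = 0 := by omega
    rw [this] at h
    omega
  exact le_antisymm (le_pow_of_squeeze a g n d c C hn ha1 hup h1)
    (pow_le_of_squeeze a g n d c M hn hmono hlow h2)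

end Fermat.Agent.S26lib.Squeeze
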