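import Mathlib

/-!
# Project K (S26), block (P2): the lower growth bound and the basis hypothesis

* `exists_lower_growth` : `g` algebraically independent elements of `L m` in a multiplicative
  monotone filtration with `1 ∈ L 0` give `k^g ≤ M * dim L k` (count the monomials).
* `exists_basis_mem` : if every element of `F` has a denominator in `E` bringing it into
  `⋃ L' k`, then some `E`-basis of `F` lies in a single `L' c`.
-/

namespace Fermat.Agent.S26lib.Squeeze

open Module

section Lower

variable {K E : Type*} [Field K] [Field E] [Algebra K E]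

theorem pow_mem_of_mul (L : ℕ → Submodule K E) (hone : (1 : E) ∈ L 0)
    (hmul : ∀ j k y z, y ∈ L j → z ∈ L k → y * z ∈ L (j + k)) {j : ℕ} {y : E} (hy : y ∈ L j)
    (t : ℕ) : y ^ t ∈ L (j * t) := by
  induction t with
  | zero => simpa using hone
  | succ t ih =>
    rw [pow_succ, Nat.mul_succ]
    exact hmul _ _ _ _ ih hy

theorem prod_mem_of_mul (L : ℕ → Submodule K E) (hone : (1 : E) ∈ L 0)
    (hmul : ∀ j k y z, y ∈ L j → z ∈ L k → y * z ∈ L (j + k)) {ι : Type*} (s : Finset ι)
    (y : ι → E) (d : ι → ℕ) (hy : ∀ i ∈ s, y i ∈ L (d i)) :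
    ∏ i ∈ s, y i ∈ L (∑ i ∈ s, d i) := by
  classical
  induction s using Finset.induction_on with
  | empty => simpa using hone
  | insert a s ha ih =>
    rw [Finset.prod_insert ha, Finset.sum_insert ha]
    exact hmul _ _ _ _ (hy a (Finset.mem_insert_self a s))
      (ih fun i hi => hy i (Finset.mem_insert_of_mem hi))

/-- The monomials `∏ x_i ^ e_i` in algebraically independent elements are linearly independent. -/
theorem linearIndependent_monomials {g : ℕ} (x : Fin g → E) (hx : AlgebraicIndependent K x)
    (q : ℕ) :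
    LinearIndependent K (fun e : Fin g → Fin (q + 1) => ∏ i, x i ^ (e i : ℕ)) := by
  let s : (Fin g → Fin (q + 1)) → (Fin g →₀ ℕ) :=
    fun e => Finsupp.equivFunOnFinite.symm (fun i => (e i : ℕ))
  have hs : Function.Injective s := by
    intro e e' h
    funext i
    have := DFunLike.congr_fun h i
    simp only [s, Finsupp.equivFunOnFinite_symm_apply_apply] at this
    exact Fin.ext this
  have h1 : LinearIndependent K (fun e => (MvPolynomial.basisMonomials (Fin g) K) (s e)) :=
    (MvPolynomial.basisMonomials (Fin g) K).linearIndependent.comp s hs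
  have h2 := h1.map' (MvPolynomial.aeval (R := K) x).toLinearMap
    (LinearMap.ker_eq_bot.mpr hx)
  have hfun : (fun e : Fin g → Fin (q + 1) => ∏ i, x i ^ (e i : ℕ)) =
      (⇑(MvPolynomial.aeval (R := K) x).toLinearMap ∘
        fun e => (MvPolynomial.basisMonomials (Fin g) K) (s e)) := by
    funext e
    simp only [Function.comp_apply, MvPolynomial.coe_basisMonomials, AlgHom.toLinearMap_apply,
      MvPolynomial.aeval_monomial, map_one, one_mul]
    rw [Finsupp.prod_fintype _ _ (fun i => pow_zero _)]
    rfl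
  rw [hfun]
  exact h2

/-- **Lower growth bound.** -/
theorem exists_lower_growth (g : ℕ) (L : ℕ → Submodule K E) (hfin : ∀ k, Module.Finite K (L k))
    (hmono : Monotone L) (hone : (1 : E) ∈ L 0)
    (hmul : ∀ j k y z, y ∈ L j → z ∈ L k → y * z ∈ L (j + k))
    (m : ℕ) (x : Fin g → E) (hx : AlgebraicIndependent K x) (hxm : ∀ i, x i ∈ L m) :
    ∃ M, ∀ k, k ^ g ≤ M * finrank K (L k) := by
  have := hfin
  set T : ℕ := (m + 1) * (g + 1) with hT
  have hTpos : 0 < T := by positivity
  refine ⟨T ^ g, fun k => ?_⟩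
  set q : ℕ := k / T with hq
  -- the monomials with exponents `≤ q` lie in `L k`
  have hmem : ∀ e : Fin g → Fin (q + 1), ∏ i, x i ^ (e i : ℕ) ∈ L k := by
    intro e
    have h1 : ∏ i ∈ Finset.univ, x i ^ (e i : ℕ) ∈ L (∑ i ∈ Finset.univ, m * (e i : ℕ)) :=
      prod_mem_of_mul L hone hmul Finset.univ _ _
        (fun i _ => pow_mem_of_mul L hone hmul (hxm i) _)
    refine hmono ?_ h1
    have h2 : ∑ i : Fin g, m * (e i : ℕ) ≤ ∑ _i : Fin g, m * q :=
      Finset.sum_le_sum fun i _ => Nat.mul_le_mul_left _ (Nat.lt_succ_iff.mp (e i).2)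
    rw [Finset.sum_const, Finset.card_univ, Fintype.card_fin, smul_eq_mul] at h2
    have h3 : T * q ≤ k := Nat.mul_div_le k T
    have h4 : g * (m * q) ≤ T * q := by
      rw [hT]
      nlinarith
    omega
  have hli : LinearIndependent K
      (fun e : Fin g → Fin (q + 1) => (⟨∏ i, x i ^ (e i : ℕ), hmem e⟩ : L k)) := by
    apply LinearIndependent.of_comp (L k).subtype
    exact linearIndependent_monomials x hx q
  have hcard := hli.fintype_card_le_finrank
  rw [Fintype.card_fun, Fintype.card_fin, Fintype.card_fin] at hcard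
  have hk : k < T * (q + 1) := by
    rw [hq]
    exact Nat.lt_mul_div_succ k hTpos
  calc k ^ g ≤ (T * (q + 1)) ^ g := Nat.pow_le_pow_left hk.le g
    _ = T ^ g * (q + 1) ^ g := mul_pow _ _ _
    _ ≤ T ^ g * finrank K (L k) := Nat.mul_le_mul_left _ hcard

end Lower

section BasisMem

variable {K E F : Type*} [Field K] [Field E] [Field F] [Algebra K F] [Algebra E F]

/-- **The basis hypothesis from denominators.** -/
theorem exists_basis_mem [FiniteDimensional E F] (L' : ℕ → Submodule K F) (hmono' : Monotone L')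
    (hden : ∀ z : F, ∃ s : E, s ≠ 0 ∧ ∃ k, algebraMap E F s * z ∈ L' k) :
    ∃ c, ∃ θ : Basis (Fin (finrank E F)) E F, ∀ i, θ i ∈ L' c := by
  classical
  let b := finBasis E F
  choose s hs0 kk hk using fun i => hden (b i)
  let w : Fin (finrank E F) → Eˣ := fun i => Units.mk0 (s i) (hs0 i)
  refine ⟨Finset.univ.sup kk, b.unitsSMul w, fun i => ?_⟩
  rw [Basis.unitsSMul_apply]
  have : w i • b i = algebraMap E F (s i) * b i := by
    rw [Units.smul_def, Algebra.smul_def]
    rfl
  rw [this]
  exact hmono' (Finset.le_sup (Finset.mem_univ i)) (hk i)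

end BasisMem

end Fermat.Agent.S26lib.Squeeze
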