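import Fermat.Agent.S26lib.Iface

/-!
# Project K (S26), block (P2): basic calculus in a thin Weil model

Elementary consequences of the `DivModel` axioms (helper7's `Iface.lean`): powers, the
valuation subring of a prime divisor, multiplicativity and monotonicity of the spaces `L(E)`,
and `regOff D = ⋃ L(kD)`.
-/

namespace Fermat.Agent.S26lib.Squeeze

open Fermat.Agent.S26lib

universe u

variable {K F : Type u} [Field K] [Field F] [Algebra K F] (M : DivModel K F)

theorem ord_pow (P : M.ι) {x : F} (hx : x ≠ 0) (k : ℕ) :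
    M.ord P (x ^ k) = (k : ℤ) * M.ord P x := by
  induction k with
  | zero => simp [M.ord_one]
  | succ k ih =>
    rw [pow_succ, M.ord_mul P (pow_ne_zero k hx) hx, ih]
    push_cast
    ring

theorem ord_div (P : M.ι) {x y : F} (hx : x ≠ 0) (hy : y ≠ 0) :
    M.ord P (x / y) = M.ord P x - M.ord P y := by
  rw [div_eq_mul_inv, M.ord_mul P hx (inv_ne_zero hy), M.ord_inv P hy]
  ring

theorem mem_integers {P : M.ι} {x : F} : x ∈ M.integers P ↔ x = 0 ∨ 0 ≤ M.ord P x := Iff.rfl

theorem mem_integers_of_ne_zero {P : M.ι} {x : F} (hx : x ≠ 0) :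
    x ∈ M.integers P ↔ 0 ≤ M.ord P x := by
  rw [mem_integers]
  constructor
  · rintro (h | h)
    · exact absurd h hx
    · exact h
  · exact Or.inr

/-- The valuation subring of a prime divisor. -/
def valSub (P : M.ι) : ValuationSubring F where
  carrier := M.integers P
  mul_mem' := by
    rintro x y (rfl | hx) (rfl | hy)
    · exact Or.inl (mul_zero 0)
    · exact Or.inl (zero_mul y)
    · exact Or.inl (mul_zero x)
    · rcases eq_or_ne x 0 with rfl | hx0
      · exact Or.inl (zero_mul y)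
      rcases eq_or_ne y 0 with rfl | hy0
      · exact Or.inl (mul_zero x)
      refine Or.inr ?_
      rw [M.ord_mul P hx0 hy0]
      exact add_nonneg hx hy
  one_mem' := Or.inr (M.ord_one P).ge
  add_mem' := by
    rintro x y (rfl | hx) (rfl | hy)
    · exact Or.inl (add_zero 0)
    · rw [zero_add]; exact Or.inr hy
    · rw [add_zero]; exact Or.inr hx
    · rcases eq_or_ne x 0 with rfl | hx0
      · rw [zero_add]; exact Or.inr hy
      rcases eq_or_ne y 0 with rfl | hy0
      · rw [add_zero]; exact Or.inr hx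
      rcases eq_or_ne (x + y) 0 with h0 | h0
      · exact Or.inl h0
      · exact Or.inr (le_trans (le_min hx hy) (M.ord_add P hx0 hy0 h0))
  zero_mem' := Or.inl rfl
  neg_mem' := by
    rintro x (rfl | hx)
    · exact Or.inl neg_zero
    · exact Or.inr (by rw [M.ord_neg]; exact hx)
  mem_or_inv_mem' := by
    intro x
    rcases eq_or_ne x 0 with rfl | hx0
    · exact Or.inl (Or.inl rfl)
    rcases le_total 0 (M.ord P x) with h | h
    · exact Or.inl (Or.inr h)
    · refine Or.inr (Or.inr ?_)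
      rw [M.ord_inv P hx0]
      omega

theorem mem_valSub {P : M.ι} {x : F} : x ∈ valSub M P ↔ x ∈ M.integers P := Iff.rfl

theorem mem_L_of_ne_zero {E : M.ι → ℤ} {x : F} (hx : x ≠ 0) :
    x ∈ M.L E ↔ ∀ P, -E P ≤ M.ord P x := by
  rw [DivModel.mem_L]
  constructor
  · rintro (h | h)
    · exact absurd h hx
    · exact h
  · exact Or.inr

theorem L_mono {E E' : M.ι → ℤ} (h : ∀ P, E P ≤ E' P) : M.L E ≤ M.L E' := by
  rintro x (rfl | hx)
  · exact Or.inl rfl
  · exact Or.inr fun P => le_trans (neg_le_neg (h P)) (hx P)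

theorem mul_mem_L {E E' : M.ι → ℤ} {x y : F} (hx : x ∈ M.L E) (hy : y ∈ M.L E') :
    x * y ∈ M.L (fun P => E P + E' P) := by
  rcases eq_or_ne x 0 with rfl | hx0
  · rw [zero_mul]; exact Or.inl rfl
  rcases eq_or_ne y 0 with rfl | hy0
  · rw [mul_zero]; exact Or.inl rfl
  rw [mem_L_of_ne_zero M hx0] at hx
  rw [mem_L_of_ne_zero M hy0] at hy
  refine Or.inr fun P => ?_
  rw [M.ord_mul P hx0 hy0]
  have h1 := hx P
  have h2 := hy P
  show -(E P + E' P) ≤ _
  omega

theorem nsmulDiv_add (j k : ℕ) (D : M.ι → ℕ) (P : M.ι) :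
    M.nsmulDiv (j + k) D P = M.nsmulDiv j D P + M.nsmulDiv k D P := by
  simp only [DivModel.nsmulDiv]
  push_cast
  ring

theorem nsmulDiv_nonneg (k : ℕ) (D : M.ι → ℕ) (P : M.ι) : 0 ≤ M.nsmulDiv k D P := by
  simp only [DivModel.nsmulDiv]
  positivity

theorem nsmulDiv_mono {j k : ℕ} (h : j ≤ k) (D : M.ι → ℕ) (P : M.ι) :
    M.nsmulDiv j D P ≤ M.nsmulDiv k D P := by
  simp only [DivModel.nsmulDiv]
  have : (j : ℤ) ≤ (k : ℤ) := by exact_mod_cast h
  exact mul_le_mul_of_nonneg_right this (by positivity)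

/-- The filtration `k ↦ L(kD)`. -/
def Lk (D : M.ι → ℕ) (k : ℕ) : Submodule K F := M.L (M.nsmulDiv k D)

theorem Lk_mono (D : M.ι → ℕ) : Monotone (Lk M D) :=
  fun _ _ h => L_mono M (nsmulDiv_mono M h D)

theorem mul_mem_Lk (D : M.ι → ℕ) {j k : ℕ} {x y : F} (hx : x ∈ Lk M D j) (hy : y ∈ Lk M D k) :
    x * y ∈ Lk M D (j + k) := by
  have := mul_mem_L M hx hy
  refine L_mono M (fun P => ?_) this
  rw [nsmulDiv_add]

theorem one_mem_Lk (D : M.ι → ℕ) (k : ℕ) : (1 : F) ∈ Lk M D k := by
  refine Or.inr fun P => ?_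
  rw [M.ord_one]
  have := nsmulDiv_nonneg M k D P
  omega

theorem Lk_le_regOff (D : M.ι → ℕ) (k : ℕ) : ∀ x ∈ Lk M D k, x ∈ M.regOff D := by
  rintro x (rfl | hx)
  · exact Or.inl rfl
  · refine Or.inr fun P hP => ?_
    have := hx P
    simp only [DivModel.nsmulDiv, hP, Nat.cast_zero, mul_zero, neg_zero] at this
    exact this

/-- `regOff D = ⋃ L(kD)`: a function regular off `D` has poles of bounded order. -/
theorem exists_mem_Lk_of_mem_regOff (D : M.ι → ℕ) {x : F} (hx : x ∈ M.regOff D) :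
    ∃ k, x ∈ Lk M D k := by
  rcases eq_or_ne x 0 with rfl | hx0
  · exact ⟨0, Or.inl rfl⟩
  rcases hx with h | hx
  · exact absurd h hx0
  have hfin := M.finite_supp x hx0
  -- bound the pole orders on the finite set where `ord ≠ 0`
  obtain ⟨k, hk⟩ : ∃ k : ℕ, ∀ P ∈ hfin.toFinset, -M.ord P x ≤ (k : ℤ) := by
    refine ⟨(hfin.toFinset.sup fun P => (-M.ord P x).toNat), fun P hP => ?_⟩
    have h1 : (-M.ord P x).toNat ≤ hfin.toFinset.sup fun P => (-M.ord P x).toNat :=
      Finset.le_sup (f := fun P => (-M.ord P x).toNat) hP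
    have h2 : -M.ord P x ≤ ((-M.ord P x).toNat : ℤ) := Int.self_le_toNat _
    have h3 : ((-M.ord P x).toNat : ℤ) ≤
        ((hfin.toFinset.sup fun P => (-M.ord P x).toNat : ℕ) : ℤ) := by exact_mod_cast h1
    exact le_trans h2 h3
  refine ⟨k, Or.inr fun P => ?_⟩
  simp only [DivModel.nsmulDiv]
  by_cases hP0 : M.ord P x = 0
  · rw [hP0]
    have : (0 : ℤ) ≤ (k : ℤ) * (D P : ℤ) := by positivity
    omega
  · have hPm : P ∈ hfin.toFinset := by
      rw [Set.Finite.mem_toFinset]
      exact hP0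
    have h1 := hk P hPm
    rcases Nat.eq_zero_or_pos (D P) with hD | hD
    · have := hx P hD
      rw [hD]
      simp only [Nat.cast_zero, mul_zero, neg_zero]
      exact this
    · have h2 : (k : ℤ) ≤ (k : ℤ) * (D P : ℤ) := by
        have : (1 : ℤ) ≤ (D P : ℤ) := by exact_mod_cast hD
        nlinarith [Int.natCast_nonneg k]
      omega

end Fermat.Agent.S26lib.Squeeze
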