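import Fermat.Agent.S26lib.Squeeze.ModelMap
import Fermat.Agent.S26lib.Squeeze.Lower

/-!
# Project K (S26), block (P2): denominators, lower growth and the linear equivalence

In a thin Weil model with `GrowthHyp` / `FinMapHyp`:

* `exists_denominator` : every `z ∈ F` has `s ∈ ν F`, `s ≠ 0`, with `s z ∈ ⋃ L(k ν^*D)` (`hθ`);
* `exists_lower_growth_model` : `k^g ≤ M₀ * dim L(kD)` (`hlow`);
* `finrank_Lk_pullDiv` : `ν^*D = n² D + div h₀` gives `dim L(k ν^*D) = dim L(n² k D)` (`hlin`).
-/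

namespace Fermat.Agent.S26lib.Squeeze

open Fermat.Agent.S26lib Module

universe u

variable {K F : Type u} [Field K] [Field F] [Algebra K F] {M : DivModel K F}

/-- An element integral over a subring contained in a valuation subring lies in it. -/
theorem mem_valuationSubring_of_isIntegral (R : Subring F) (V : ValuationSubring F)
    (hRV : R ≤ V.toSubring) {x : F} (hx : IsIntegral ↥R x) : x ∈ V := by
  have hic : IsIntegrallyClosedIn V.toSubring F := inferInstanceAs (IsIntegrallyClosedIn V F)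
  have := (Subring.integralClosure_subring_le_iff (S := R) (T := V.toSubring)).mpr hRV
  exact this hx

/-- **Denominators**: every element of `F` is brought into `⋃ L(k ν^*D)` by a non-zero element
of `ν F`. -/
theorem exists_denominator {ν : F →ₐ[K] F} {img : M.ι → M.ι} {e : M.ι → ℕ}
    (h : M.FinMapHyp ν img e) {D : M.ι → ℕ} {g : ℕ} (hG : M.GrowthHyp D g) (z : F) :
    ∃ s : ν.fieldRange, s ≠ 0 ∧ ∃ k, algebraMap ν.fieldRange F s * z ∈
      Lk M (M.pullDiv img e D) k := by
  have := h.finite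
  -- the subring `ν(B)`, `B = regOff D`
  set R₀ : Subring F := (M.regOff D).toSubring.map (ν : F →+* F) with hR₀
  have hR₀E : ∀ r ∈ R₀, r ∈ ν.fieldRange := by
    rintro r ⟨x, _, rfl⟩
    exact ⟨x, rfl⟩
  let j : ↥R₀ →+* ↥ν.fieldRange :=
    { toFun := fun r => ⟨r.1, hR₀E r.1 r.2⟩
      map_one' := rfl
      map_mul' := fun _ _ => rfl
      map_zero' := rfl
      map_add' := fun _ _ => rfl }
  let _ : Algebra ↥R₀ ↥ν.fieldRange := j.toAlgebra
  have : IsScalarTower ↥R₀ ↥ν.fieldRange F := IsScalarTower.of_algebraMap_eq (fun r => rfl)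
  -- `ν F` is algebraic over `ν(B)`
  have halg : Algebra.IsAlgebraic ↥R₀ ↥ν.fieldRange := by
    refine ⟨fun y => ?_⟩
    obtain ⟨x, rfl⟩ := toRange_surjective ν y
    obtain ⟨a, ha, b, hb, hb0, rfl⟩ := hG.frac x
    have ha' : ν a ∈ R₀ := ⟨a, ha, rfl⟩
    have hb' : ν b ∈ R₀ := ⟨b, hb, rfl⟩
    have heq : toRange ν (a / b) =
        algebraMap ↥R₀ ↥ν.fieldRange ⟨ν a, ha'⟩ * (algebraMap ↥R₀ ↥ν.fieldRange ⟨ν b, hb'⟩)⁻¹ := by
      rw [map_div₀, div_eq_mul_inv]
      rfl
    rw [heq]
    exact (isAlgebraic_algebraMap _).mul (isAlgebraic_algebraMap _).inv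
  have hz : IsAlgebraic ↥ν.fieldRange z := (IsIntegral.of_finite ↥ν.fieldRange z).isAlgebraic
  have hz' : IsAlgebraic ↥R₀ z := IsAlgebraic.restrictScalars ↥R₀ hz
  obtain ⟨r, hr0, hrint⟩ := hz'.exists_integral_multiple
  obtain ⟨b, hbB, hbr⟩ := r.2
  have hb0 : b ≠ 0 := by
    rintro rfl
    apply hr0
    apply Subtype.ext
    rw [← hbr]
    simp
  refine ⟨toRange ν b, ?_, ?_⟩
  · intro h0
    exact hb0 (toRange_injective ν (by rw [h0, map_zero]))
  -- `ν b * z` is regular off `ν^* D`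
  have hmem : (ν b) * z ∈ M.regOff (M.pullDiv img e D) := by
    rcases eq_or_ne ((ν b) * z) 0 with h0 | h0
    · exact Or.inl h0
    refine Or.inr fun P' hP' => ?_
    have hD0 : D (img P') = 0 := by
      simp only [DivModel.pullDiv] at hP'
      rcases Nat.mul_eq_zero.mp hP' with h1 | h1
      · exact absurd h1 (h.e_pos P').ne'
      · exact h1
    have hle : R₀ ≤ (valSub M P').toSubring := by
      rintro _ ⟨x, hx, rfl⟩
      rcases eq_or_ne x 0 with rfl | hx0
      · rw [map_zero]; exact (valSub M P').zero_mem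
      refine Or.inr ?_
      show 0 ≤ M.ord P' (ν x)
      rw [h.ord_comp]
      rcases hx with hx | hx
      · exact absurd hx hx0
      · exact mul_nonneg (Int.natCast_nonneg _) (hx _ hD0)
    have hint : IsIntegral ↥R₀ ((ν b) * z) := by
      have : r • z = (ν b) * z := by
        rw [Algebra.smul_def]
        show (r : F) * z = ν b * z
        rw [← hbr]
        rfl
      rw [← this]
      exact hrint
    have := mem_valuationSubring_of_isIntegral R₀ (valSub M P') hle hint
    rcases this with h1 | h1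
    · exact absurd h1 h0
    · exact h1
  exact exists_mem_Lk_of_mem_regOff M _ hmem

/-- **Lower growth in a thin Weil model.** -/
theorem exists_lower_growth_model {D : M.ι → ℕ} {g : ℕ} (hG : M.GrowthHyp D g)
    (hfin : ∀ k, Module.Finite K (Lk M D k)) :
    ∃ M₀, ∀ k, k ^ g ≤ M₀ * finrank K (Lk M D k) := by
  -- a transcendence basis inside `B = regOff D`
  set s : Set F := (M.regOff D : Set F) with hs
  have halg : Algebra.IsAlgebraic (↥(Algebra.adjoin K s)) F := by
    refine ⟨fun x => ?_⟩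
    obtain ⟨a, ha, b, hb, hb0, rfl⟩ := hG.frac x
    have ha' : a ∈ Algebra.adjoin K s := Algebra.subset_adjoin ha
    have hb' : b ∈ Algebra.adjoin K s := Algebra.subset_adjoin hb
    have heq : a / b = algebraMap (↥(Algebra.adjoin K s)) F ⟨a, ha'⟩ *
        (algebraMap (↥(Algebra.adjoin K s)) F ⟨b, hb'⟩)⁻¹ := by
      rw [div_eq_mul_inv]
      rfl
    rw [heq]
    exact (isAlgebraic_algebraMap _).mul (isAlgebraic_algebraMap _).inv
  obtain ⟨t, hts, htb⟩ := exists_isTranscendenceBasis_subset (R := K) s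
  have hcard : Cardinal.mk ↥t = (g : Cardinal) := by
    rw [htb.cardinalMk_eq_trdeg, hG.trdeg]
  obtain ⟨eqv⟩ := Cardinal.mk_eq_nat_iff.mp hcard
  let x : Fin g → F := fun i => ((eqv.symm i : ↥t) : F)
  have hx : AlgebraicIndependent K x := htb.1.comp _ eqv.symm.injective
  have hxB : ∀ i, x i ∈ M.regOff D := fun i => hts (eqv.symm i).2
  choose kk hkk using fun i => exists_mem_Lk_of_mem_regOff M D (hxB i)
  refine exists_lower_growth g (Lk M D) hfin (Lk_mono M D) (one_mem_Lk M D 0)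
    (fun j k y z hy hz => mul_mem_Lk M D hy hz) (Finset.univ.sup kk) x hx (fun i => ?_)
  exact Lk_mono M D (Finset.le_sup (Finset.mem_univ i)) (hkk i)

/-- Multiplication by a non-zero element, as a `K`-linear equivalence of `F`. -/
noncomputable def mulEquiv (c : F) (hc : c ≠ 0) : F ≃ₗ[K] F :=
  (LinearEquiv.smulOfUnit (Units.mk0 c hc) : F ≃ₗ[F] F).restrictScalars K

theorem mulEquiv_apply (c : F) (hc : c ≠ 0) (x : F) : mulEquiv (K := K) c hc x = c * x := rfl

/-- **`hlin`**: `ν^*D = n² D + div h₀` gives `dim L(k ν^*D) = dim L(n² k D)`. -/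
theorem finrank_Lk_pullDiv {img : M.ι → M.ι} {e : M.ι → ℕ} (D : M.ι → ℕ) (n : ℕ) {h₀ : F}
    (hh₀ : h₀ ≠ 0)
    (hquad : ∀ P' : M.ι, (M.pullDiv img e D P' : ℤ) = (n : ℤ) ^ 2 * (D P' : ℤ) + M.ord P' h₀)
    (k : ℕ) :
    finrank K (Lk M (M.pullDiv img e D) k) = finrank K (Lk M D (n ^ 2 * k)) := by
  have hc : h₀ ^ k ≠ 0 := pow_ne_zero _ hh₀
  have hmap : (Lk M (M.pullDiv img e D) k).map (mulEquiv (K := K) (h₀ ^ k) hc : F →ₗ[K] F) =
      Lk M D (n ^ 2 * k) := by
    apply le_antisymm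
    · rintro _ ⟨z, hz, rfl⟩
      show h₀ ^ k * z ∈ Lk M D (n ^ 2 * k)
      rcases eq_or_ne z 0 with rfl | hz0
      · rw [mul_zero]; exact Or.inl rfl
      have hz' := (mem_L_of_ne_zero M hz0).mp hz
      refine Or.inr fun P => ?_
      rw [M.ord_mul P hc hz0, ord_pow M P hh₀]
      have h1 := hz' P
      have h2 := hquad P
      simp only [DivModel.nsmulDiv] at h1 ⊢
      push_cast
      nlinarith
    · intro y hy
      refine ⟨(h₀ ^ k)⁻¹ * y, ?_, ?_⟩
      · rcases eq_or_ne y 0 with rfl | hy0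
        · rw [mul_zero]; exact Or.inl rfl
        have hy' := (mem_L_of_ne_zero M hy0).mp hy
        refine Or.inr fun P => ?_
        rw [M.ord_mul P (inv_ne_zero hc) hy0, M.ord_inv P hc, ord_pow M P hh₀]
        have h1 := hy' P
        have h2 := hquad P
        simp only [DivModel.nsmulDiv] at h1 ⊢
        push_cast at h1 ⊢
        nlinarith
      · show h₀ ^ k * ((h₀ ^ k)⁻¹ * y) = y
        rw [← mul_assoc, mul_inv_cancel₀ hc, one_mul]
  rw [← hmap]
  exact (LinearEquiv.finrank_map_eq _ _).symm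

end Fermat.Agent.S26lib.Squeeze
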