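import Fermat.Agent.S26lib.Squeeze.ModelBasic

/-!
# Project K (S26), block (P2): a finite separable self-map in a thin Weil model

For `ν : F →ₐ[K] F` satisfying helper7's `FinMapHyp` we prove the two functorialities needed by
the cover inequalities:

* `map_mem_Lk_pullDiv` (`hmap`) : `ν (L(kD)) ⊆ L(k ν^*D)`;
* `trace_mem_map_Lk` (`htr`) : `Tr_{F/νF} (L(k ν^*D)) ⊆ ν (L(kD))`, through
  "integral closure of `ν(O_P)` in `F` = intersection of the valuation rings of the prime divisors
  over `P`" (`FinMapHyp.ext` + Mathlib's `iInf_valuationSubring_superset`) and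
  `Algebra.isIntegral_trace`.
-/

namespace Fermat.Agent.S26lib.Squeeze

open Fermat.Agent.S26lib Module

universe u

section Pull

variable {F F' : Type*} [Field F] [Field F']

/-- Integrality over the image of a subring pulls back along an injective ring homomorphism. -/
theorem isIntegral_of_map_closure (ν : F →+* F') (O : Subring F) (u : F)
    (hu : IsIntegral ↥(Subring.closure ((O.map ν : Subring F') : Set F')) (ν u)) :
    IsIntegral ↥O u := by
  have hν : Function.Injective ν := ν.injective
  obtain ⟨p, hp, hpu⟩ := hu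
  let eq := O.equivMapOfInjective ν hν
  have hle : Subring.closure ((O.map ν : Subring F') : Set F') ≤ O.map ν :=
    (Subring.closure_eq (O.map ν)).le
  let χ : ↥(Subring.closure ((O.map ν : Subring F') : Set F')) →+* ↥O :=
    (eq.symm : ↥(O.map ν) →+* ↥O).comp (Subring.inclusion hle)
  refine ⟨p.map χ, hp.map χ, ?_⟩
  apply hν
  rw [map_zero]
  have h1 := Polynomial.hom_eval₂ (p.map χ) (algebraMap ↥O F) ν u
  rw [h1, Polynomial.eval₂_map]
  have h2 : (ν.comp (algebraMap ↥O F)).comp χ =
      algebraMap ↥(Subring.closure ((O.map ν : Subring F') : Set F')) F' := by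
    ext r
    simp only [RingHom.comp_apply, χ]
    have : ν ((eq.symm (Subring.inclusion hle r) : ↥O) : F) =
        ((eq (eq.symm (Subring.inclusion hle r)) : ↥(O.map ν)) : F') :=
      (Subring.coe_equivMapOfInjective_apply O ν hν _).symm
    rw [RingEquiv.apply_symm_apply] at this
    exact this
  rw [h2]
  exact hpu

end Pull

variable {K F : Type u} [Field K] [Field F] [Algebra K F] (M : DivModel K F)

/-- `ν` with codomain its field range. -/
def toRange (ν : F →ₐ[K] F) : F →ₐ[K] ν.fieldRange where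
  toFun x := ⟨ν x, x, rfl⟩
  map_one' := Subtype.ext (map_one ν)
  map_mul' x y := Subtype.ext (map_mul ν x y)
  map_zero' := Subtype.ext (map_zero ν)
  map_add' x y := Subtype.ext (map_add ν x y)
  commutes' c := Subtype.ext (ν.commutes c)

theorem coe_toRange (ν : F →ₐ[K] F) (x : F) : ((toRange ν x : ν.fieldRange) : F) = ν x := rfl

theorem toRange_injective (ν : F →ₐ[K] F) : Function.Injective (toRange ν) :=
  (toRange ν).toRingHom.injective

theorem toRange_surjective (ν : F →ₐ[K] F) : Function.Surjective (toRange ν) := by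
  rintro ⟨y, x, rfl⟩
  exact ⟨x, rfl⟩

/-- The `K`-linear equivalence `F ≃ ν F`. -/
noncomputable def rangeEquiv (ν : F →ₐ[K] F) : F ≃ₗ[K] ν.fieldRange :=
  LinearEquiv.ofBijective (toRange ν).toLinearMap ⟨toRange_injective ν, toRange_surjective ν⟩

theorem rangeEquiv_apply (ν : F →ₐ[K] F) (x : F) : rangeEquiv ν x = toRange ν x := rfl

variable {M}

/-- A valuation subring of `F` containing `ν(O_P)` contains every element which is integral at
all prime divisors over `P`. -/
theorem mem_valuationSubring_of_forall_over {ν : F →ₐ[K] F} {img : M.ι → M.ι} {e : M.ι → ℕ}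
    (h : M.FinMapHyp ν img e) (P : M.ι) (w : F)
    (hw : ∀ P', img P' = P → w ∈ M.integers P') (V : ValuationSubring F)
    (hV : ∀ x ∈ M.integers P, ν x ∈ V) : w ∈ V := by
  by_cases hcase : ∀ x, ν x ∈ V → x ∈ M.integers P
  · obtain ⟨P', hP', hVP'⟩ := h.ext P V (fun x => ⟨hcase x, hV x⟩)
    exact (hVP' w).mpr (hw P' hP')
  · push Not at hcase
    obtain ⟨x, hxV, hxP⟩ := hcase
    have hx0 : x ≠ 0 := fun h0 => hxP (Or.inl h0)
    have hxneg : M.ord P x < 0 := by
      by_contra hge
      exact hxP (Or.inr (not_lt.mp hge))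
    -- `ν F ⊆ V`
    have hall : ∀ y : F, ν y ∈ V := by
      intro y
      rcases eq_or_ne y 0 with rfl | hy0
      · rw [map_zero]; exact V.zero_mem
      set N : ℕ := (-M.ord P y).toNat with hN
      have h1 : y * x⁻¹ ^ N ∈ M.integers P := by
        refine Or.inr ?_
        rw [M.ord_mul P hy0 (pow_ne_zero _ (inv_ne_zero hx0)), ord_pow M P (inv_ne_zero hx0),
          M.ord_inv P hx0]
        have h2 : -M.ord P y ≤ (N : ℤ) := Int.self_le_toNat _
        have h3 : (N : ℤ) ≤ (N : ℤ) * (-M.ord P x) := by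
          have : (1 : ℤ) ≤ -M.ord P x := by omega
          nlinarith [Int.natCast_nonneg N]
        omega
      have h2 := hV _ h1
      have h3 : ν y = ν (y * x⁻¹ ^ N) * ν x ^ N := by
        rw [← map_pow, ← map_mul]
        congr 1
        rw [inv_pow, mul_assoc, inv_mul_cancel₀ (pow_ne_zero _ hx0), mul_one]
      rw [h3]
      exact V.mul_mem _ _ h2 (pow_mem hxV N)
    -- `F` is integral over `ν F`, and `V` is integrally closed
    have := h.finite
    have hint : IsIntegral ν.fieldRange w := IsIntegral.of_finite _ _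
    have hic : IsIntegrallyClosedIn V.toSubring F := inferInstanceAs (IsIntegrallyClosedIn V F)
    have hle : Subring.ofClass ν.fieldRange ≤ V.toSubring := by
      rintro _ ⟨y, rfl⟩
      exact hall y
    have := (Subring.integralClosure_subring_le_iff (S := ν.fieldRange) (T := V.toSubring)).mpr hle
    exact this hint


/-- An element of `F` which is integral at all prime divisors over `P` is integral over `ν(O_P)`. -/
theorem isIntegral_of_forall_over {ν : F →ₐ[K] F} {img : M.ι → M.ι} {e : M.ι → ℕ}
    (h : M.FinMapHyp ν img e) (P : M.ι) (w : F)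
    (hw : ∀ P', img P' = P → w ∈ M.integers P') :
    IsIntegral ↥(Subring.closure
      (((valSub M P).toSubring.map (ν : F →+* F) : Subring F) : Set F)) w := by
  set s : Set F := (((valSub M P).toSubring.map (ν : F →+* F) : Subring F) : Set F) with hs
  have h1 : w ∈ (⨅ V : {V : ValuationSubring F // s ⊆ V.toSubring}, V.1.toSubring) := by
    rw [Subring.mem_iInf]
    rintro ⟨V, hV⟩
    refine mem_valuationSubring_of_forall_over h P w hw V (fun x hx => ?_)
    apply hV
    rw [hs]
    exact ⟨x, hx, rfl⟩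
  rw [iInf_valuationSubring_superset] at h1
  exact h1


theorem trace_isIntegral_subring (E : IntermediateField K F) [FiniteDimensional E F]
    (R : Subring F) (hR : ∀ r ∈ R, r ∈ E) (w : F) (hw : IsIntegral ↥R w) :
    IsIntegral ↥R ((Algebra.trace E F w : E) : F) := by
  let j : ↥R →+* ↥E :=
    { toFun := fun r => ⟨r.1, hR r.1 r.2⟩
      map_one' := rfl
      map_mul' := fun _ _ => rfl
      map_zero' := rfl
      map_add' := fun _ _ => rfl }
  let _ : Algebra ↥R ↥E := j.toAlgebra
  have : IsScalarTower ↥R ↥E F := IsScalarTower.of_algebraMap_eq (fun r => rfl)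
  have h1 : IsIntegral ↥R (Algebra.trace E F w) := Algebra.isIntegral_trace hw
  exact h1.algebraMap (B := F)

/-- **`hmap`**: pull-back maps `L(kD)` into `L(k ν^*D)`. -/
theorem map_mem_Lk_pullDiv {ν : F →ₐ[K] F} {img : M.ι → M.ι} {e : M.ι → ℕ}
    (h : M.FinMapHyp ν img e) (D : M.ι → ℕ) (k : ℕ) {x : F} (hx : x ∈ Lk M D k) :
    ν x ∈ Lk M (M.pullDiv img e D) k := by
  rcases eq_or_ne x 0 with rfl | hx0
  · rw [map_zero]; exact Or.inl rfl
  rw [Lk, mem_L_of_ne_zero M hx0] at hx
  refine Or.inr fun P' => ?_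
  rw [h.ord_comp]
  have h1 := hx (img P')
  simp only [DivModel.nsmulDiv, DivModel.pullDiv] at h1 ⊢
  push_cast
  have h2 : (0 : ℤ) ≤ (e P' : ℤ) := Int.natCast_nonneg _
  nlinarith

/-- **`htr`**: the trace maps `L(k ν^*D)` into `ν (L(kD))`. -/
theorem trace_mem_map_Lk {ν : F →ₐ[K] F} {img : M.ι → M.ι} {e : M.ι → ℕ}
    (h : M.FinMapHyp ν img e) (D : M.ι → ℕ) (k : ℕ) {z : F}
    (hz : z ∈ Lk M (M.pullDiv img e D) k) :
    Algebra.trace ν.fieldRange F z ∈ (Lk M D k).map (rangeEquiv ν : F →ₗ[K] ν.fieldRange) := by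
  have := h.finite
  obtain ⟨y, hy⟩ := toRange_surjective ν (Algebra.trace ν.fieldRange F z)
  refine ⟨y, ?_, hy⟩
  show y ∈ Lk M D k
  rcases eq_or_ne y 0 with rfl | hy0
  · exact Or.inl rfl
  have hz0 : z ≠ 0 := by
    rintro rfl
    rw [map_zero] at hy
    exact hy0 (toRange_injective ν (by rw [hy, map_zero]))
  rw [Lk, mem_L_of_ne_zero M hz0] at hz
  refine Or.inr fun P => ?_
  obtain ⟨t, ht0, ht1⟩ := M.ord_surj P
  set m : ℕ := k * D P with hm
  set w : F := z * ν (t ^ m) with hw
  have hνt : ν (t ^ m) ≠ 0 := by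
    rw [Ne, map_eq_zero]
    exact pow_ne_zero _ ht0
  have hwint : ∀ P', img P' = P → w ∈ M.integers P' := by
    intro P' hP'
    refine Or.inr ?_
    rw [hw, M.ord_mul P' hz0 hνt, h.ord_comp, hP', ord_pow M P ht0, ht1]
    have h1 := hz P'
    simp only [DivModel.nsmulDiv, DivModel.pullDiv, hP'] at h1
    push_cast at h1 ⊢
    rw [hm]
    push_cast
    nlinarith
  have hint := isIntegral_of_forall_over h P w hwint
  have hR : ∀ r ∈ Subring.closure
      (((valSub M P).toSubring.map (ν : F →+* F) : Subring F) : Set F), r ∈ ν.fieldRange := by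
    intro r hr
    rw [Subring.closure_eq] at hr
    obtain ⟨x, _, rfl⟩ := hr
    exact ⟨x, rfl⟩
  have htr := trace_isIntegral_subring ν.fieldRange _ hR w hint
  have hw' : w = (toRange ν (t ^ m)) • z := by
    rw [Algebra.smul_def, hw, mul_comm]
    rfl
  have htw : Algebra.trace ν.fieldRange F w = toRange ν (t ^ m * y) := by
    rw [hw', LinearMap.map_smul, smul_eq_mul, ← hy, map_mul]
  rw [htw, coe_toRange] at htr
  have hu := isIntegral_of_map_closure (ν : F →+* F) (valSub M P).toSubring (t ^ m * y) htr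
  have hic : IsIntegrallyClosedIn (valSub M P).toSubring F :=
    inferInstanceAs (IsIntegrallyClosedIn (valSub M P) F)
  obtain ⟨⟨u, hu1⟩, hu2⟩ := IsIntegrallyClosedIn.isIntegral_iff.mp hu
  have hmem : t ^ m * y ∈ M.integers P := by
    rw [← hu2]
    exact hu1
  rcases hmem with h0 | h0
  · exact absurd h0 (mul_ne_zero (pow_ne_zero _ ht0) hy0)
  · rw [M.ord_mul P (pow_ne_zero _ ht0) hy0, ord_pow M P ht0, ht1] at h0
    simp only [DivModel.nsmulDiv]
    rw [hm] at h0
    push_cast at h0
    linarith

end Fermat.Agent.S26lib.Squeeze
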